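import Mathlib
import Fermat.Prelude.Def_CuspForm_HeckeAlgebra
import Fermat.Agent.S22
import Fermat.Agent.S41.Final.DSLiftSpan
import Fermat.Agent.S41.Forms.Consumer
import Fermat.Agent.S40x.A.SocleNonzero

/-!
# P-S44 block A, leaf A6' (re-cut of note 2635): Deligne-Serre lifting from a CHARACTER of the
Hecke algebra (helper55)

`ds_lift_of_character`: for ANY ring homomorphism `θ' : 𝕋_S(M') →+* ZMod p` (`𝕋_S(M')` = the
Prelude's `heckeAlgebra M' 2 S`, any `S`) and integers `a l` with `θ' (T_l) = a l mod p`, there are a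
normalised eigenform `g` of level `M'` and a maximal ideal `m' ∋ p` of `ℤ̄` with
`a_l(g) ≡ a l mod m'` for all primes `l ∤ M'`, `l ∉ S`.

Proof.  (1) `SocleNonzero` on the finite `𝕋`-module `𝕋 / p 𝕋` and `n = ker θ'`: some `g0 ∈ 𝕋 ∖ p 𝕋`
with `n g0 ⊆ p 𝕋`; in particular `(T_l - a l) g0 ∈ p 𝕋`.  (2) the landed Deligne-Serre lemma
`S41/Final/DSLiftSpan.exists_eigenvector_lift_in_span` in `V = End_ℂ S₂(Γ₀(M'))`, `L = 𝕋`, operators
= left multiplications by `T_l`: `F ≠ 0` in `span_ℂ 𝕋` with `T_l F = c_l F`, `c_l ≡ a l mod m'`.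
(3) `v = F v0 ≠ 0` is a `T_l`-eigenvector with eigenvalues `c_l`; the joint eigenspace is stable under
all Hecke operators of level `M'` (they commute), so it contains a simultaneous eigenvector, which is
a multiple of a normalised eigenform (`S49/Eigenform`).
-/

set_option autoImplicit false
set_option linter.unusedSectionVars false
set_option linter.style.haveILetI false

noncomputable section

namespace Fermat.Agent.S40x.A6c.DSLiftChar

open CuspForm CongruenceSubgroup Fermat.Agent.S41.Forms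

section socle

variable {p : ℕ} [Fact p.Prime] {R : Type*} [CommRing R]

/-- step (1), for any commutative ring finite over `ℤ`: an element of `R ∖ p R` which is multiplied
into `p R` by `ker θ'`. -/
theorem exists_socle_elt (hfin : Module.Finite ℤ R) (θ' : R →+* ZMod p) :
    ∃ g0 : R, (¬ ∃ h : R, g0 = (p : ℤ) • h) ∧
      ∀ t : R, θ' t = 0 → ∃ h : R, t * g0 = (p : ℤ) • h := by
  have hp : p.Prime := Fact.out
  set I : Ideal R := Ideal.span {((p : ℤ) : R)} with hI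
  have hmemI : ∀ x : R, x ∈ I ↔ ∃ h : R, x = (p : ℤ) • h := by
    intro x
    rw [hI, Ideal.mem_span_singleton']
    constructor
    · rintro ⟨h, rfl⟩
      exact ⟨h, by rw [zsmul_eq_mul, mul_comm]⟩
    · rintro ⟨h, rfl⟩
      exact ⟨h, by rw [zsmul_eq_mul, mul_comm]⟩
  -- the quotient is finite
  have hfinZ : Finite (R ⧸ I) := by
    have h1 : Module.Finite ℤ (R ⧸ I) :=
      Module.Finite.of_surjective (Submodule.mkQ I).toAddMonoidHom.toIntLinearMap
        (Submodule.mkQ_surjective I)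
    have h2 : AddGroup.FG (R ⧸ I) := Module.Finite.iff_addGroup_fg.mp h1
    apply AddCommGroup.finite_of_fg_isAddTorsion
    intro z
    rw [isOfFinAddOrder_iff_nsmul_eq_zero]
    refine ⟨p, hp.pos, ?_⟩
    obtain ⟨x, rfl⟩ := Submodule.mkQ_surjective I z
    rw [← map_nsmul, Submodule.mkQ_apply, Submodule.Quotient.mk_eq_zero, hmemI]
    exact ⟨x, by rw [natCast_zsmul]⟩
  have hn : RingHom.ker θ' ≠ ⊤ := RingHom.ker_ne_top θ'
  have hann : ∀ r : R, (∀ z : R ⧸ I, r • z = 0) → r ∈ RingHom.ker θ' := by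
    intro r hr
    have h1 := hr (Submodule.Quotient.mk 1)
    rw [← Submodule.Quotient.mk_smul, smul_eq_mul, mul_one, Submodule.Quotient.mk_eq_zero,
      hmemI] at h1
    obtain ⟨h, rfl⟩ := h1
    rw [RingHom.mem_ker, zsmul_eq_mul, map_mul, map_intCast]
    have : ((p : ℤ) : ZMod p) = 0 := by
      rw [Int.cast_natCast]
      exact ZMod.natCast_self p
    rw [this, zero_mul]
  obtain ⟨z, hz0, hz⟩ := Fermat.Agent.S40x.A.SocleNonzero.exists_ne_zero_smul_eq_zero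
    (Z := R ⧸ I) (RingHom.ker θ') hn hann
  obtain ⟨g0, rfl⟩ := Submodule.mkQ_surjective I z
  refine ⟨g0, ?_, fun t ht => ?_⟩
  · rw [← hmemI]
    intro h
    apply hz0
    rw [Submodule.mkQ_apply, Submodule.Quotient.mk_eq_zero]
    exact h
  · have h1 := hz t (RingHom.mem_ker.mpr ht)
    rw [Submodule.mkQ_apply, ← Submodule.Quotient.mk_smul, smul_eq_mul,
      Submodule.Quotient.mk_eq_zero, hmemI] at h1
    exact h1

end socle

section lift

variable {p M' : ℕ} [NeZero M'] [Fact p.Prime] {S : Set ℕ}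

local notation "𝒪bar" => integralClosure ℤ ℂ

/-- the index set: primes `l ∤ M'`, `l ∉ S` -/
abbrev Idx (M' : ℕ) (S : Set ℕ) : Type := {l : ℕ // l.Prime ∧ ¬ l ∣ M' ∧ l ∉ S}

/-- steps (1)+(2): a nonzero `T_l`-eigenvector in `S₂(Γ₀(M'))` with eigenvalues `≡ a l`. -/
theorem exists_eigenvector (hfin : Module.Finite ℤ (heckeAlgebra M' 2 S))
    (θ' : heckeAlgebra M' 2 S →+* ZMod p) (a : ℕ → ℤ)
    (ha : ∀ (l : ℕ) (hl : l.Prime) (hlM' : ¬ l ∣ M') (hlS : l ∉ S),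
      θ' (heckeAlgebra.T hl hlM' hlS) = ((a l : ℤ) : ZMod p)) :
    ∃ (v : CuspForm (Gamma0 M') 2) (m' : Ideal 𝒪bar) (c : Idx M' S → 𝒪bar),
      v ≠ 0 ∧ m'.IsMaximal ∧ ((p : ℕ) : 𝒪bar) ∈ m' ∧
      ∀ i : Idx M' S, heckeTLin 2 i.2.1 i.2.2.1 v = (c i : ℂ) • v ∧
        c i - ((a i.1 : ℤ) : 𝒪bar) ∈ m' := by
  have hp : p.Prime := Fact.out
  obtain ⟨g0, hg0, hker⟩ := exists_socle_elt hfin θ'
  -- the lattice
  set L : Submodule ℤ (Module.End ℂ (CuspForm (Gamma0 M') 2)) :=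
    Subalgebra.toSubmodule (heckeAlgebra M' 2 S) with hL
  have hLfg : L.FG := Module.Finite.iff_fg.mp hfin
  -- the operators: left multiplication by `T_l`
  let T : Idx M' S → Module.End ℂ (Module.End ℂ (CuspForm (Gamma0 M') 2)) :=
    fun i => LinearMap.mulLeft ℂ (heckeTLin 2 i.2.1 i.2.2.1)
  have hTapp : ∀ i x, T i x = heckeTLin 2 i.2.1 i.2.2.1 * x := fun _ _ => rfl
  have hcomm : ∀ i j, ∀ x ∈ L, T i (T j x) = T j (T i x) := by
    intro i j x _
    rw [hTapp, hTapp, hTapp, hTapp, ← mul_assoc, ← mul_assoc,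
      heckeTLin_comm 2 i.2.1 i.2.2.1 j.2.1 j.2.2.1]
  have hTL : ∀ i, ∀ x ∈ L, T i x ∈ L := by
    intro i x hx
    rw [hTapp]
    exact (heckeAlgebra M' 2 S).mul_mem (heckeTLin_mem_heckeAlgebra i.2.1 i.2.2.1 i.2.2.2) hx
  have hgL : (g0 : Module.End ℂ (CuspForm (Gamma0 M') 2)) ∈ L := g0.2
  have hg : ¬ ∃ h ∈ L, (g0 : Module.End ℂ (CuspForm (Gamma0 M') 2)) = (p : ℤ) • h := by
    rintro ⟨h, hhL, hh⟩
    apply hg0
    refine ⟨⟨h, hhL⟩, Subtype.ext ?_⟩
    rw [hh]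
    rfl
  have haL : ∀ i : Idx M' S, ∃ h ∈ L,
      T i (g0 : Module.End ℂ (CuspForm (Gamma0 M') 2)) - a i.1 • (g0 : Module.End ℂ _)
        = (p : ℤ) • h := by
    intro i
    have hθ : θ' (heckeAlgebra.T i.2.1 i.2.2.1 i.2.2.2 - ((a i.1 : ℤ) : heckeAlgebra M' 2 S)) = 0 := by
      rw [map_sub, ha i.1 i.2.1 i.2.2.1 i.2.2.2, map_intCast, sub_self]
    obtain ⟨h, hh⟩ := hker _ hθ
    refine ⟨h, h.2, ?_⟩
    have := congrArg (Subtype.val) hh
    rw [hTapp]
    rw [sub_mul, ← zsmul_eq_mul] at this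
    exact this
  obtain ⟨F, m', c, hFspan, hF0, hmax, hpm, hc⟩ :=
    Fermat.Agent.S41.Final.exists_eigenvector_lift_in_span L hLfg T hcomm hTL p hp
      (g0 : Module.End ℂ (CuspForm (Gamma0 M') 2)) hgL hg (fun i => a i.1) haL
  -- a vector not killed by `F`
  obtain ⟨v0, hv0⟩ : ∃ v0, F v0 ≠ 0 := by
    by_contra hcon
    simp only [not_exists, not_not] at hcon
    exact hF0 (LinearMap.ext fun v => by simpa using hcon v)
  refine ⟨F v0, m', c, hv0, hmax, hpm, fun i => ⟨?_, (hc i).2⟩⟩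
  have h1 := congrArg (fun G : Module.End ℂ (CuspForm (Gamma0 M') 2) => G v0) (hc i).1
  simp only [hTapp, Module.End.mul_apply, LinearMap.smul_apply] at h1
  exact h1

/-- **A6' (character form of the Deligne-Serre lifting).** -/
theorem ds_lift_of_character (hfin : Module.Finite ℤ (heckeAlgebra M' 2 S))
    (θ' : heckeAlgebra M' 2 S →+* ZMod p) (a : ℕ → ℤ)
    (ha : ∀ (l : ℕ) (hl : l.Prime) (hlM' : ¬ l ∣ M') (hlS : l ∉ S),
      θ' (heckeAlgebra.T hl hlM' hlS) = ((a l : ℤ) : ZMod p)) :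
    ∃ (g : CuspForm (Gamma0 M') 2) (m' : Ideal 𝒪bar),
      g.IsNormalizedEigenform ∧ m'.IsMaximal ∧ ((p : ℕ) : 𝒪bar) ∈ m' ∧
        ∀ l : ℕ, l.Prime → ¬ l ∣ M' → l ∉ S →
          ∃ c : 𝒪bar, (c : ℂ) = ModularFormClass.qCoeff g l ∧
            c - ((a l : ℤ) : 𝒪bar) ∈ m' := by
  classical
  obtain ⟨v, m', c, hv0, hmax, hpm, hc⟩ := exists_eigenvector hfin θ' a ha
  have := Fermat.Agent.S23.finiteDimensional_cuspForm M' 2
  -- the eigensystem as a function on `ℕ`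
  let cfun : ℕ → ℂ := fun l =>
    if h : l.Prime ∧ ¬ l ∣ M' ∧ l ∉ S then ((c ⟨l, h⟩ : 𝒪bar) : ℂ) else 0
  have hcfun : ∀ (l : ℕ) (h : l.Prime ∧ ¬ l ∣ M' ∧ l ∉ S), cfun l = ((c ⟨l, h⟩ : 𝒪bar) : ℂ) :=
    fun l h => dif_pos h
  have h1np : ¬ (1 : ℕ).Prime := Nat.not_prime_one
  -- `v` lies in the eigen-subspace
  have hvW : v ∈ eigenSub M' (fun l => l ∉ S) cfun 1 := by
    refine ⟨fun l hl hd hP => ?_, ?_⟩
    · rw [heckeOp_of_not_dvd M' hl hd, hcfun l ⟨hl, hd, hP⟩]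
      exact (hc ⟨l, hl, hd, hP⟩).1
    · rw [heckeOp_of_not_prime M' h1np]
      rfl
  have hW : eigenSub M' (fun l => l ∉ S) cfun 1 ≠ ⊥ := by
    intro hbot
    rw [hbot, Submodule.mem_bot] at hvW
    exact hv0 hvW
  obtain ⟨w, hwW, hw0, hw⟩ := Fermat.Agent.S49.Lifting.exists_common_eigenvector_in_submodule
    (heckeOp M') (heckeOp_comm M') _ (eigenSub M' (fun l => l ∉ S) cfun 1) rfl hW
    (fun i x hx => heckeOp_mem_eigenSub M' i hx)
  choose lam hlam using hw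
  obtain ⟨g, hg, hgl⟩ := Fermat.Agent.S49.Eigenform.exists_normalizedEigenform_of_eigenvector w hw0
    lam (fun l hl hd => by rw [← heckeOp_of_not_dvd M' hl hd]; exact hlam l)
    (fun l hl hd => by rw [← heckeOp_of_dvd M' hl hd]; exact hlam l)
  refine ⟨g, m', hg, hmax, hpm, fun l hl hd hlS => ⟨c ⟨l, hl, hd, hlS⟩, ?_, (hc ⟨l, hl, hd, hlS⟩).2⟩⟩
  rw [hgl l hl]
  have h1 := hwW.1 l hl hd hlS
  rw [hlam l, hcfun l ⟨hl, hd, hlS⟩] at h1
  exact (smul_left_injective ℂ hw0 h1).symm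

end lift

end Fermat.Agent.S40x.A6c.DSLiftChar
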