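import Fermat.Agent.S40x.A.S44SkeletonV2
import Fermat.Agent.S40x.A6c.DSLiftChar

/-!
# P-S44 block A: the leaf `LeafA6'` of `S40x/A/S44SkeletonV2` is a theorem (helper55)

`leafA6' : S44SkeletonV2.LeafA6'` = `DSLiftChar.ds_lift_of_character` (Deligne-Serre lifting from a
character of the Hecke algebra of level `M'`; sub-leaf A6b is proved inline there).
-/

set_option autoImplicit false

namespace Fermat.Agent.S40x.A6c.LeafA6

/-- **`LeafA6'` holds.** -/
theorem leafA6' : Fermat.Agent.S40x.A.S44SkeletonV2.LeafA6' := by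
  intro p M' _ _ S hfin _ θ' a ha
  obtain ⟨g, m', hg, hmax, hpm, hcong⟩ :=
    Fermat.Agent.S40x.A6c.DSLiftChar.ds_lift_of_character (S := (↑S : Set ℕ)) hfin θ' a ha
  exact ⟨g, m', hg, hmax, hpm, fun l hl hd hlS => hcong l hl hd (by exact_mod_cast hlS)⟩

end Fermat.Agent.S40x.A6c.LeafA6
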