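import Mathlib
import Fermat.Agent.S40x.A5b.OldClass
import Fermat.Agent.S40x.A6c.DSLiftChar

/-!
# P-S44 block A, the OLD case of the re-cut seam (note 2635), complete (helper55)

`θ : 𝕋_S(M' p) →+* ZMod p` with `θ (T_l) = a l mod p`.  Either `θ` is `p`-new
(`∃ h, θ h ≠ 0 ∧ levelHom h = 0`: this is the hypothesis `hnew` of GEO'), or there is a normalised
eigenform `g` of level `M'` and a maximal ideal `m' ∋ p` of `ℤ̄` with `a_l(g) ≡ a l mod m'` for all
primes `l ∤ M'`, `l ∉ S` (`new_or_exists_form`).  No geometry: `levelHom` is surjective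
(`S35x/LevelHom`), so `θ` factors through `𝕋_S(M')` (`OldClass.new_or_factors`), and the
Deligne-Serre lifting from a character (`DSLiftChar.ds_lift_of_character`) applies; S22 gives the
finiteness of the Hecke algebra.
-/

set_option autoImplicit false

noncomputable section

namespace Fermat.Agent.S40x.A6c.OldCase

open CuspForm CongruenceSubgroup Fermat.Agent.S35x

local notation "𝒪bar" => integralClosure ℤ ℂ

variable {p M' : ℕ} [NeZero M'] [NeZero p] [Fact p.Prime] {S : Finset ℕ}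

/-- **new or old.** -/
theorem new_or_exists_form (hpS : p ∈ S)
    (hNSset : ∀ q : ℕ, q.Prime → q ∣ M' * p → q ∈ (↑S : Set ℕ))
    (θ : heckeAlgebra (M' * p) 2 (↑S : Set ℕ) →+* ZMod p) (a : ℕ → ℤ)
    (hθ : ∀ (l : ℕ) (hl : l.Prime) (hlN : ¬ l ∣ M' * p) (hlS : l ∉ (↑S : Set ℕ)),
      θ (heckeAlgebra.T hl hlN hlS) = ((a l : ℤ) : ZMod p)) :
    (∃ h : heckeAlgebra (M' * p) 2 (↑S : Set ℕ), θ h ≠ 0 ∧ levelHom hNSset h = 0) ∨
      ∃ (g : CuspForm (Gamma0 M') 2) (m' : Ideal 𝒪bar),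
        g.IsNormalizedEigenform ∧ m'.IsMaximal ∧ ((p : ℕ) : 𝒪bar) ∈ m' ∧
          ∀ l : ℕ, l.Prime → ¬ l ∣ M' → l ∉ (↑S : Set ℕ) →
            ∃ c : 𝒪bar, (c : ℂ) = ModularFormClass.qCoeff g l ∧
              c - ((a l : ℤ) : 𝒪bar) ∈ m' := by
  have hp : p.Prime := Fact.out
  rcases Fermat.Agent.S40x.A5b.OldClass.new_or_factors θ hNSset with hnew | ⟨θ', hθ'⟩
  · exact Or.inl hnew
  · right
    refine Fermat.Agent.S40x.A6c.DSLiftChar.ds_lift_of_character
      (Fermat.Agent.S22.result M' 2 (↑S : Set ℕ)) θ' a (fun l hl hlM' hlS => ?_)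
    have hlp : l ≠ p := fun h => hlS (by rw [h]; exact_mod_cast hpS)
    have hlN : ¬ l ∣ M' * p := by
      intro h
      rcases (Nat.Prime.dvd_mul hl).mp h with h | h
      · exact hlM' h
      · exact hlp ((Nat.prime_dvd_prime_iff_eq hl hp).mp h)
    rw [← levelHom_T hNSset hl hlM' hlN hlS, hθ' _, hθ l hl hlN hlS]

end Fermat.Agent.S40x.A6c.OldCase
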